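/-
Project S36 (Carayol), cell [ACORE] (helper1): congruences modulo the maximal ideal of a valuation
subring, written as `x - y ∈ V.nonunits` (prefix `s36c_`).
-/
import Mathlib
import Fermat.Agent.S36.Abel3.Field

set_option autoImplicit false
set_option linter.unusedSectionVars false
set_option linter.unusedVariables false

namespace Fermat.Agent.S36

section Cong

variable {E : Type*} [Field E] (V : ValuationSubring E)

theorem s36c_nu_add {x y : E} (hx : x ∈ V.nonunits) (hy : y ∈ V.nonunits) :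
    x + y ∈ V.nonunits := by
  rw [V.mem_nonunits_iff] at hx hy ⊢
  exact lt_of_le_of_lt (Valuation.map_add _ _ _) (max_lt hx hy)

theorem s36c_nu_neg {x : E} (hx : x ∈ V.nonunits) : -x ∈ V.nonunits := by
  rw [V.mem_nonunits_iff] at hx ⊢
  rwa [Valuation.map_neg]

theorem s36c_nu_sub {x y : E} (hx : x ∈ V.nonunits) (hy : y ∈ V.nonunits) :
    x - y ∈ V.nonunits := by
  rw [sub_eq_add_neg]
  exact s36c_nu_add V hx (s36c_nu_neg V hy)

theorem s36c_nu_mul {x y : E} (hx : x ∈ V.nonunits) (hy : y ∈ V) : x * y ∈ V.nonunits := by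
  rw [V.mem_nonunits_iff] at hx ⊢
  rw [map_mul]
  have h1 : V.valuation y ≤ 1 := (V.valuation_le_one_iff y).2 hy
  calc V.valuation x * V.valuation y ≤ V.valuation x * 1 := by gcongr
    _ = V.valuation x := mul_one _
    _ < 1 := hx

theorem s36c_nu_mul' {x y : E} (hx : x ∈ V) (hy : y ∈ V.nonunits) : x * y ∈ V.nonunits := by
  rw [mul_comm]
  exact s36c_nu_mul V hy hx

theorem s36c_mem_of_unit {x : E} (hx : V.valuation x = 1) : x ∈ V :=
  (V.valuation_le_one_iff x).1 hx.le

theorem s36c_nu_mem {x : E} (hx : x ∈ V.nonunits) : x ∈ V :=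
  V.nonunits_subset hx

/-- transitivity of congruence. -/
theorem s36c_cong_trans {x y z : E} (h1 : x - y ∈ V.nonunits) (h2 : y - z ∈ V.nonunits) :
    x - z ∈ V.nonunits := by
  have := s36c_nu_add V h1 h2
  rwa [sub_add_sub_cancel] at this

theorem s36c_cong_symm {x y : E} (h : x - y ∈ V.nonunits) : y - x ∈ V.nonunits := by
  have := s36c_nu_neg V h
  rwa [neg_sub] at this

/-- congruence is compatible with multiplication (integral elements). -/
theorem s36c_cong_mul {x y x' y' : E} (hy : y ∈ V) (hx' : x' ∈ V) (h : x - y ∈ V.nonunits)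
    (h' : x' - y' ∈ V.nonunits) : x * x' - y * y' ∈ V.nonunits := by
  have e : x * x' - y * y' = (x - y) * x' + y * (x' - y') := by ring
  rw [e]
  exact s36c_nu_add V (s36c_nu_mul V h hx') (s36c_nu_mul' V hy h')

/-- congruence is compatible with powers. -/
theorem s36c_cong_pow {x y : E} (hy : y ∈ V) (h : x - y ∈ V.nonunits) (n : ℕ) :
    x ^ n - y ^ n ∈ V.nonunits := by
  have hx : x ∈ V := by
    have := V.add_mem _ _ (s36c_nu_mem V h) hy
    rwa [sub_add_cancel] at this
  induction n with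
  | zero =>
    rw [pow_zero, pow_zero, sub_self]
    exact V.mem_nonunits_iff.2 (by rw [map_zero]; exact zero_lt_one)
  | succ n ih =>
    rw [pow_succ, pow_succ]
    exact s36c_cong_mul V (V.pow_mem hy n) hx ih h

/-- `x ≡ 1` ⟹ `x ^ n ≡ 1`. -/
theorem s36c_one_pow {x : E} (h : x - 1 ∈ V.nonunits) (n : ℕ) : x ^ n - 1 ∈ V.nonunits := by
  have := s36c_cong_pow V V.one_mem h n
  rwa [one_pow] at this

/-- `x ≡ 1` ⟹ `x` is a unit. -/
theorem s36c_unit_of_one {x : E} (h : x - 1 ∈ V.nonunits) : V.valuation x = 1 :=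
  s36a_unit_of_sub V (map_one _) h

/-- `x ≡ y`, `y` a unit ⟹ `x⁻¹ ≡ y⁻¹`. -/
theorem s36c_cong_inv {x y : E} (hy : V.valuation y = 1) (h : x - y ∈ V.nonunits) :
    x⁻¹ - y⁻¹ ∈ V.nonunits := by
  have hx : V.valuation x = 1 := s36a_unit_of_sub V hy h
  have hx0 : x ≠ 0 := by
    rintro rfl
    rw [map_zero] at hx
    exact zero_ne_one hx
  have hy0 : y ≠ 0 := by
    rintro rfl
    rw [map_zero] at hy
    exact zero_ne_one hy
  have e : x⁻¹ - y⁻¹ = (y - x) * (x⁻¹ * y⁻¹) := by
    field_simp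
  rw [e]
  apply s36c_nu_mul V (s36c_cong_symm V h)
  apply (V.valuation_le_one_iff _).1
  rw [map_mul, map_inv₀, map_inv₀, hx, hy, inv_one, mul_one]

end Cong

end Fermat.Agent.S36
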