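/-
Project S36 (Carayol), cell [ACORE] (helper1): THE ABSTRACT CORE ASSEMBLY (prefix `s36c_`).

Valuation vocabulary only: `L ⊆ E` fields, `O ⊆ L`, `VA VB VC ⊆ E` valuation subrings,
`N1 N2 : E →* E` (the two norms followed by the inclusions), `K1 K2 ⊆ E` the two subfields
(`E₁`, `β E₁`).

* `s36c_consts_one`: for `f ≡ 1` at `VA, VB, VC` with `N f = C d · s ^ m`: normalise `d ∈ O^×`
  and extract the two constants (the residues of the `m`-th root at the two valuations of the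
  target) from the (root) property.
* `s36c_core`: `s36a_vert_abel3` ⟹ constants + weak approximation ⟹ the seam `hglue`
  (= [GLUE-MAIN], the global toric argument) ⟹ `g ^ d = C c · r ^ m`.
-/
import Mathlib
import Fermat.Agent.S36.Abel3.Vert
import Fermat.Agent.S36.ACore.Cong

set_option autoImplicit false
set_option linter.unusedSectionVars false
set_option linter.unusedVariables false
set_option maxHeartbeats 1000000

namespace Fermat.Agent.S36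

section ACore

variable {L E : Type*} [Field L] [Field E] [Algebra L E]

/-- **normalisation + (root)**, one norm.  `V` is the valuation at which `N x ≡ x ^ q`
(`VB` for `N1`, `VA` for `N2`); `W` the other one (`VA` for `N1`, `VB` for `N2`), at which
`N x ≡ r · x ^ (q-1)` modulo `VC` for `x ≡ r` at `W`; `K` the target subfield, on which `W` and
`VC` have the same restriction. -/
theorem s36c_consts_one (O : ValuationSubring L) (V W VC : ValuationSubring E) (N : E →* E)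
    (K : Subfield E) (q m : ℕ) (hm : 1 ≤ m)
    (hV : ∀ c : L, algebraMap L E c ∈ V ↔ c ∈ O)
    (hW : ∀ c : L, algebraMap L E c ∈ W ↔ c ∈ O)
    (ϖ : L) (hϖ0 : ϖ ≠ 0) (hϖm : ϖ ∈ O.nonunits)
    (hϖO : ∀ c : L, c ≠ 0 → ∃ (j : ℤ) (u : L), O.valuation u = 1 ∧ c = ϖ ^ j * u)
    (hϖV : ∀ x : E, x ≠ 0 → ∃ j : ℤ, V.valuation (x * algebraMap L E ϖ ^ j) = 1)
    (hNK : ∀ x : E, N x ∈ K) (hCK : ∀ c : L, algebraMap L E c ∈ K)
    (hWC : ∀ y : E, y ∈ K → (y ∈ W.nonunits ↔ y ∈ VC.nonunits))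
    (hnV : ∀ x : E, V.valuation x = 1 → W.valuation x = 1 → VC.valuation x = 1 →
      N x - x ^ q ∈ V.nonunits)
    (hnC : ∀ x : E, V.valuation x = 1 → W.valuation x = 1 → VC.valuation x = 1 →
      ∀ r : L, O.valuation r = 1 → x - algebraMap L E r ∈ W.nonunits →
        N x - algebraMap L E r * x ^ (q - 1) ∈ VC.nonunits)
    (hrootV : ∀ y : E, V.valuation y = 1 → ∀ c : L, O.valuation c = 1 →
      y ^ m - algebraMap L E c ∈ V.nonunits →
        ∃ u : L, O.valuation u = 1 ∧ y - algebraMap L E u ∈ V.nonunits)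
    (hrootW : ∀ y : E, W.valuation y = 1 → ∀ c : L, O.valuation c = 1 →
      y ^ m - algebraMap L E c ∈ W.nonunits →
        ∃ u : L, O.valuation u = 1 ∧ y - algebraMap L E u ∈ W.nonunits)
    (f : E) (hfV : f - 1 ∈ V.nonunits) (hfW : f - 1 ∈ W.nonunits) (hfC : f - 1 ∈ VC.nonunits)
    (d : L) (hd : d ≠ 0) (s : E) (hs : s ∈ K) (hNf : N f = algebraMap L E d * s ^ m) :
    ∃ (c : L) (h : E), O.valuation c = 1 ∧ h ≠ 0 ∧ h ∈ K ∧ N f = algebraMap L E c * h ^ m ∧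
      ∃ νV νW : L, O.valuation νV = 1 ∧ O.valuation νW = 1 ∧
        h - algebraMap L E νV ∈ V.nonunits ∧ h - algebraMap L E νW ∈ W.nonunits ∧
        h - algebraMap L E νW ∈ VC.nonunits ∧
        c * νV ^ m - 1 ∈ O.nonunits ∧ c * νW ^ m - 1 ∈ O.nonunits := by
  have huV : V.valuation f = 1 := s36c_unit_of_one V hfV
  have huW : W.valuation f = 1 := s36c_unit_of_one W hfW
  have huC : VC.valuation f = 1 := s36c_unit_of_one VC hfC
  -- `N f ≡ 1` at `V`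
  have hNV : N f - 1 ∈ V.nonunits :=
    s36c_cong_trans V (hnV f huV huW huC) (s36c_one_pow V hfV q)
  -- `N f ≡ 1` at `VC`, hence at `W`
  have hNC : N f - 1 ∈ VC.nonunits := by
    have h1 := hnC f huV huW huC 1 (map_one _) (by rwa [map_one])
    rw [map_one, one_mul] at h1
    exact s36c_cong_trans VC h1 (s36c_one_pow VC hfC (q - 1))
  have hNW : N f - 1 ∈ W.nonunits :=
    (hWC _ (K.sub_mem (hNK f) K.one_mem)).2 hNC
  -- normalise the constant at `V`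
  have hϖ1V : V.valuation (algebraMap L E ϖ) < 1 :=
    V.mem_nonunits_iff.1 ((s36a_const_nonunit O V hV ϖ).2 hϖm)
  have hu1 : V.valuation (algebraMap L E d * s ^ m) = 1 := by
    rw [← hNf]
    exact s36c_unit_of_one V hNV
  obtain ⟨c, i, hc, he⟩ := s36a_normalise O V ϖ hϖO hϖV hϖ1V hϖ0 hV hm d hd s hu1
  set h : E := algebraMap L E ϖ ^ i * s with hh
  have hNf' : N f = algebraMap L E c * h ^ m := hNf.trans he
  have hhK : h ∈ K := K.mul_mem (K.zpow_mem (hCK ϖ) i) hs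
  have hc0 : c ≠ 0 := by
    rintro rfl
    rw [map_zero] at hc
    exact zero_ne_one hc
  have hcinv : O.valuation c⁻¹ = 1 := by rw [map_inv₀, hc, inv_one]
  have hcE : algebraMap L E c ≠ 0 := (map_ne_zero _).2 hc0
  -- `h ^ m ≡ c⁻¹` at `V` and at `W`
  have key : ∀ (U : ValuationSubring E), (∀ c : L, algebraMap L E c ∈ U ↔ c ∈ O) →
      N f - 1 ∈ U.nonunits → h ^ m - algebraMap L E c⁻¹ ∈ U.nonunits := by
    intro U hU hN
    have e : h ^ m - algebraMap L E c⁻¹ = algebraMap L E c⁻¹ * (N f - 1) := by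
      rw [hNf', map_inv₀]
      field_simp
    rw [e]
    exact s36c_nu_mul' U (s36c_mem_of_unit U (s36a_const_unit O U hU hcinv)) hN
  have unitOf : ∀ (U : ValuationSubring E), (∀ c : L, algebraMap L E c ∈ U ↔ c ∈ O) →
      N f - 1 ∈ U.nonunits → U.valuation h = 1 := by
    intro U hU hN
    exact s36a_unit_of_pow U hm (s36a_unit_of_sub U (s36a_const_unit O U hU hcinv) (key U hU hN))
  have hh0 : h ≠ 0 := by
    intro h0
    have := unitOf V hV hNV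
    rw [h0, map_zero] at this
    exact zero_ne_one this
  obtain ⟨νV, hνV, hνV'⟩ := hrootV h (unitOf V hV hNV) c⁻¹ hcinv (key V hV hNV)
  obtain ⟨νW, hνW, hνW'⟩ := hrootW h (unitOf W hW hNW) c⁻¹ hcinv (key W hW hNW)
  -- the constants: `c · ν ^ m ≡ 1`
  have hcν : ∀ (U : ValuationSubring E), (∀ c : L, algebraMap L E c ∈ U ↔ c ∈ O) →
      N f - 1 ∈ U.nonunits → ∀ ν : L, O.valuation ν = 1 → h - algebraMap L E ν ∈ U.nonunits →
      c * ν ^ m - 1 ∈ O.nonunits := by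
    intro U hU hN ν hν hhν
    rw [← s36a_const_nonunit O U hU]
    have hνU : algebraMap L E ν ∈ U := s36c_mem_of_unit U (s36a_const_unit O U hU hν)
    have hcU : algebraMap L E c ∈ U := s36c_mem_of_unit U (s36a_const_unit O U hU hc)
    have h1 : h ^ m - algebraMap L E ν ^ m ∈ U.nonunits := s36c_cong_pow U hνU hhν m
    have h2 : algebraMap L E c * h ^ m - algebraMap L E c * algebraMap L E ν ^ m ∈ U.nonunits := by
      rw [← mul_sub]
      exact s36c_nu_mul' U hcU h1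
    rw [← hNf'] at h2
    have h3 := s36c_cong_trans U (s36c_cong_symm U h2) hN
    rw [map_sub, map_mul, map_pow, map_one]
    exact h3
  exact ⟨c, h, hc, hh0, hhK, hNf', νV, νW, hνV, hνW, hνV', hνW',
    (hWC _ (K.sub_mem hhK (hCK νW))).1 hνW', hcν V hV hNV νV hνV hνV', hcν W hW hNW νW hνW hνW'⟩

/-- multiplicativity of an additive order function on powers. -/
theorem s36c_ord_pow (ord : E → ℤ)
    (hmul : ∀ x y : E, x ≠ 0 → y ≠ 0 → ord (x * y) = ord x + ord y) {x : E} (hx : x ≠ 0)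
    (n : ℕ) : ord (x ^ n) = n * ord x := by
  have h1 : ord 1 = 0 := by
    have := hmul 1 1 one_ne_zero one_ne_zero
    rw [mul_one] at this
    linarith
  induction n with
  | zero => rw [pow_zero, h1]; simp
  | succ n ih =>
    rw [pow_succ, hmul _ _ (pow_ne_zero n hx) hx, ih]
    push_cast
    ring

/-- **[ACORE]: the abstract core assembly.**  `Eg` is the exponent of the seam `hglue`
(`q ^ 3` in [GLUE-MAIN]). -/
theorem s36c_core (O : ValuationSubring L) (VA VB VC : ValuationSubring E) (N1 N2 : E →* E)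
    (K1 K2 : Subfield E) (q m Eg : ℕ) (hq : 1 ≤ q) (hm : 1 ≤ m) (hqm : Nat.Coprime q m)
    (ordA ordB ordC : E → ℤ)
    (hoA : s36a_Ord VA ordA) (hoB : s36a_Ord VB ordB) (hoC : s36a_Ord VC ordC)
    (hVA : ∀ c : L, algebraMap L E c ∈ VA ↔ c ∈ O)
    (hVB : ∀ c : L, algebraMap L E c ∈ VB ↔ c ∈ O)
    (hVC : ∀ c : L, algebraMap L E c ∈ VC ↔ c ∈ O)
    (ϖ : L) (hϖ0 : ϖ ≠ 0) (hϖm : ϖ ∈ O.nonunits) (ε : ℤ) (hε : ε * ε = 1)
    (hϖA : ordA (algebraMap L E ϖ) = ε) (hϖB : ordB (algebraMap L E ϖ) = ε)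
    (hϖC : ordC (algebraMap L E ϖ) = ((q : ℤ) - 1) * ε)
    (zC : E) (hzC0 : zC ≠ 0) (hzC : ordC zC = ε)
    (hϖO : ∀ c : L, c ≠ 0 → ∃ (j : ℤ) (u : L), O.valuation u = 1 ∧ c = ϖ ^ j * u)
    (hN1A : ∀ x : E, x ≠ 0 → ordA (N1 x) = ordA x + ordC x)
    (hN1B : ∀ x : E, x ≠ 0 → ordB (N1 x) = (q : ℤ) * ordB x)
    (hN2A : ∀ x : E, x ≠ 0 → ordA (N2 x) = (q : ℤ) * ordA x)
    (hN2B : ∀ x : E, x ≠ 0 → ordB (N2 x) = ordB x + ordC x)
    (hNc1 : ∀ c : L, N1 (algebraMap L E c) = algebraMap L E c ^ q)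
    (hNc2 : ∀ c : L, N2 (algebraMap L E c) = algebraMap L E c ^ q)
    (hWA3 : ∀ x1 x2 x3 y1 y2 y3 : E, ∃ x : E, (x - x1) * y1 ∈ VA.nonunits ∧
      (x - x2) * y2 ∈ VB.nonunits ∧ (x - x3) * y3 ∈ VC.nonunits)
    (hnA : ∀ x : E, VA.valuation x = 1 → VB.valuation x = 1 → VC.valuation x = 1 →
      N2 x - x ^ q ∈ VA.nonunits)
    (hnB : ∀ x : E, VA.valuation x = 1 → VB.valuation x = 1 → VC.valuation x = 1 →
      N1 x - x ^ q ∈ VB.nonunits)
    (hnC1 : ∀ x : E, VA.valuation x = 1 → VB.valuation x = 1 → VC.valuation x = 1 →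
      ∀ r : L, O.valuation r = 1 → x - algebraMap L E r ∈ VA.nonunits →
        N1 x - algebraMap L E r * x ^ (q - 1) ∈ VC.nonunits)
    (hnC2 : ∀ x : E, VA.valuation x = 1 → VB.valuation x = 1 → VC.valuation x = 1 →
      ∀ r : L, O.valuation r = 1 → x - algebraMap L E r ∈ VB.nonunits →
        N2 x - algebraMap L E r * x ^ (q - 1) ∈ VC.nonunits)
    (hroot : ∀ y : E, VC.valuation y = 1 → ∀ c : L, O.valuation c = 1 →
      y ^ m - algebraMap L E c ∈ VC.nonunits →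
        ∃ u : L, O.valuation u = 1 ∧ y - algebraMap L E u ∈ VC.nonunits)
    (hrootA : ∀ y : E, VA.valuation y = 1 → ∀ c : L, O.valuation c = 1 →
      y ^ m - algebraMap L E c ∈ VA.nonunits →
        ∃ u : L, O.valuation u = 1 ∧ y - algebraMap L E u ∈ VA.nonunits)
    (hrootB : ∀ y : E, VB.valuation y = 1 → ∀ c : L, O.valuation c = 1 →
      y ^ m - algebraMap L E c ∈ VB.nonunits →
        ∃ u : L, O.valuation u = 1 ∧ y - algebraMap L E u ∈ VB.nonunits)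
    (hN1K : ∀ x : E, N1 x ∈ K1) (hN2K : ∀ x : E, N2 x ∈ K2)
    (hCK1 : ∀ c : L, algebraMap L E c ∈ K1) (hCK2 : ∀ c : L, algebraMap L E c ∈ K2)
    (hAC1 : ∀ y : E, y ∈ K1 → (y ∈ VA.nonunits ↔ y ∈ VC.nonunits))
    (hBC2 : ∀ y : E, y ∈ K2 → (y ∈ VB.nonunits ↔ y ∈ VC.nonunits))
    {ι : Type*} (ordH : ι → E → ℤ)
    (hHmul : ∀ v (x y : E), x ≠ 0 → y ≠ 0 → ordH v (x * y) = ordH v x + ordH v y)
    (hHC : ∀ v (c : L), c ≠ 0 → ordH v (algebraMap L E c) = 0)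
    (hglue : ∀ f : E, f ≠ 0 → f - 1 ∈ VA.nonunits → f - 1 ∈ VB.nonunits → f - 1 ∈ VC.nonunits →
      (∀ v, (m : ℤ) ∣ ordH v f) →
      ∀ (c1 c2 : L) (h1 h2 : E), O.valuation c1 = 1 → O.valuation c2 = 1 → h1 ≠ 0 → h2 ≠ 0 →
        N1 f = algebraMap L E c1 * h1 ^ m → N2 f = algebraMap L E c2 * h2 ^ m →
      ∀ νF νV νG νU : L, O.valuation νF = 1 → O.valuation νV = 1 → O.valuation νG = 1 →
        O.valuation νU = 1 →
        h1 - algebraMap L E νF ∈ VA.nonunits → h1 - algebraMap L E νF ∈ VC.nonunits →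
        h1 - algebraMap L E νV ∈ VB.nonunits → h2 - algebraMap L E νG ∈ VA.nonunits →
        h2 - algebraMap L E νU ∈ VB.nonunits → h2 - algebraMap L E νU ∈ VC.nonunits →
        c1 * νF ^ m - 1 ∈ O.nonunits → c1 * νV ^ m - 1 ∈ O.nonunits →
        c2 * νG ^ m - 1 ∈ O.nonunits → c2 * νU ^ m - 1 ∈ O.nonunits →
      ∀ u₀ : E,
        u₀ - algebraMap L E ((νV * νU) ^ (q - 1) * (νF ^ q * νU)) ∈ VA.nonunits →
        u₀ - algebraMap L E ((νF * νG) ^ (q - 1) * (νF ^ q * νU)) ∈ VB.nonunits →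
        u₀ - algebraMap L E ((νV ^ q * νG) * (νF * νG) ^ (q - 1)) ∈ VC.nonunits →
      ∀ K : L, O.valuation K = 1 →
        f ^ (q ^ 2 - 1) * u₀ ^ m - algebraMap L E K ∈ VA.nonunits →
        f ^ (q ^ 2 - 1) * u₀ ^ m - algebraMap L E K ∈ VB.nonunits →
        f ^ (q ^ 2 - 1) * u₀ ^ m - algebraMap L E K ∈ VC.nonunits →
        ∃ (c : L) (r : E), c ≠ 0 ∧ r ≠ 0 ∧
          (f ^ (q ^ 2 - 1) * u₀ ^ m) ^ Eg = algebraMap L E c * r ^ m)
    (g : E) (hg : g ≠ 0) (hgH : ∀ v, (m : ℤ) ∣ ordH v g)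
    (c1 c2 : L) (hc1 : c1 ≠ 0) (hc2 : c2 ≠ 0) (r1 r2 : E) (hr1 : r1 ∈ K1) (hr2 : r2 ∈ K2)
    (h1 : N1 g = algebraMap L E c1 * r1 ^ m) (h2 : N2 g = algebraMap L E c2 * r2 ^ m) :
    ∃ (c : L) (r : E), c ≠ 0 ∧ r ≠ 0 ∧
      g ^ ((q + 1) * (q ^ 2 - 1) * ((q ^ 2 - 1) * Eg)) = algebraMap L E c * r ^ m := by
  have hϖE : algebraMap L E ϖ ≠ 0 := (map_ne_zero _).2 hϖ0
  -- stage 1: vertical normalisation + abelian part
  obtain ⟨c0, hc0, R0, f, hR0, hfA, hfB, hfC, hfin⟩ :=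
    s36a_vert_abel3 O VA VB VC N1 N2 q m hq hm hqm ordA ordB ordC hoA hoB hoC hVA hVB hVC ϖ hϖ0 hϖm
      ε hε hϖA hϖB hϖC zC hzC0 hzC hϖO hN1A hN1B hN2A hN2B hNc1 hNc2 hWA3 hnA hnB hnC1 hnC2 hroot
      g hg c1 c2 hc1 hc2 r1 r2 h1 h2
  set D0 : ℕ := (q + 1) * (q ^ 2 - 1) with hD0
  have hc0E : algebraMap L E c0 ≠ 0 := (map_ne_zero _).2 hc0
  have hf0 : f ≠ 0 := by
    intro h0
    have := s36c_unit_of_one VA hfA
    rw [h0, map_zero] at this
    exact zero_ne_one this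
  -- the norms of `f`
  have normf : ∀ (N : E →* E) (K : Subfield E) (c' : L) (r' : E), c' ≠ 0 → r' ∈ K →
      (∀ x : E, N x ∈ K) → (∀ c : L, N (algebraMap L E c) = algebraMap L E c ^ q) →
      N g = algebraMap L E c' * r' ^ m →
      ∃ (d : L) (s : E), d ≠ 0 ∧ s ∈ K ∧ N f = algebraMap L E d * s ^ m := by
    intro N K c' r' hc' hr' hNK hNc hNg
    have hNR0 : N R0 ≠ 0 := s36a_map_ne_zero N hR0
    refine ⟨c' ^ D0 * (c0 ^ q)⁻¹, r' ^ D0 * (N R0)⁻¹,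
      mul_ne_zero (pow_ne_zero _ hc') (inv_ne_zero (pow_ne_zero _ hc0)),
      K.mul_mem (K.pow_mem hr' _) (K.inv_mem (hNK R0)), ?_⟩
    have e1 : N (g ^ D0) = N (algebraMap L E c0 * R0 ^ m * f) := by rw [hfin]
    rw [map_pow, map_mul, map_mul, map_pow, hNc, hNg] at e1
    have hc0q : algebraMap L E c0 ^ q ≠ 0 := pow_ne_zero _ hc0E
    have hNR0m : N R0 ^ m ≠ 0 := pow_ne_zero _ hNR0
    have e2 : N f = (algebraMap L E c' * r' ^ m) ^ D0 * (algebraMap L E c0 ^ q)⁻¹ *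
        (N R0 ^ m)⁻¹ := by
      rw [e1]
      field_simp
    rw [e2, map_mul, map_pow, map_inv₀, map_pow]
    ring
  obtain ⟨d1, s1, hd1, hs1, hNf1⟩ := normf N1 K1 c1 r1 hc1 hr1 hN1K hNc1 h1
  obtain ⟨d2, s2, hd2, hs2, hNf2⟩ := normf N2 K2 c2 r2 hc2 hr2 hN2K hNc2 h2
  -- horizontal orders of `f`
  have hfH : ∀ v, (m : ℤ) ∣ ordH v f := by
    intro v
    have hRm : R0 ^ m ≠ 0 := pow_ne_zero _ hR0
    have e1 : ordH v (g ^ D0) = ordH v (algebraMap L E c0 * R0 ^ m * f) := by rw [hfin]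
    rw [s36c_ord_pow (ordH v) (hHmul v) hg, hHmul v _ _ (mul_ne_zero hc0E hRm) hf0,
      hHmul v _ _ hc0E hRm, hHC v c0 hc0, s36c_ord_pow (ordH v) (hHmul v) hR0] at e1
    obtain ⟨k, hk⟩ := hgH v
    refine ⟨(D0 : ℤ) * k - ordH v R0, ?_⟩
    rw [hk] at e1
    linear_combination (-1 : ℤ) * e1
  -- the value groups are generated by `ϖ` at `VA`, `VB`
  have hϖVA := s36a_exists_zpow_of_ord hoA hϖE hε hϖA
  have hϖVB := s36a_exists_zpow_of_ord hoB hϖE hε hϖB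
  -- stage 1.5: constants
  obtain ⟨e1, k1, he1, hk1, hk1K, hNk1, νV, νF, hνV, hνF, hk1B, hk1A, hk1C, hcνV, hcνF⟩ :=
    s36c_consts_one O VB VA VC N1 K1 q m hm hVB hVA ϖ hϖ0 hϖm hϖO hϖVB hN1K hCK1 hAC1
      (fun x hB hA hC => hnB x hA hB hC) (fun x hB hA hC => hnC1 x hA hB hC) hrootB hrootA
      f hfB hfA hfC d1 hd1 s1 hs1 hNf1
  obtain ⟨e2, k2, he2, hk2, hk2K, hNk2, νG, νU, hνG, hνU, hk2A, hk2B, hk2C, hcνG, hcνU⟩ :=
    s36c_consts_one O VA VB VC N2 K2 q m hm hVA hVB ϖ hϖ0 hϖm hϖO hϖVA hN2K hCK2 hBC2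
      hnA hnC2 hrootA hrootB f hfA hfB hfC d2 hd2 s2 hs2 hNf2
  -- weak approximation: `u₀`
  obtain ⟨u₀, hu₀A, hu₀B, hu₀C⟩ := hWA3
    (algebraMap L E ((νV * νU) ^ (q - 1) * (νF ^ q * νU)))
    (algebraMap L E ((νF * νG) ^ (q - 1) * (νF ^ q * νU)))
    (algebraMap L E ((νV ^ q * νG) * (νF * νG) ^ (q - 1))) 1 1 1
  rw [mul_one] at hu₀A hu₀B hu₀C
  have hκA : O.valuation ((νV * νU) ^ (q - 1) * (νF ^ q * νU)) = 1 := by
    simp only [map_mul, map_pow, hνV, hνU, hνF, one_pow, mul_one]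
  have hu₀0 : u₀ ≠ 0 := by
    intro h0
    have := s36a_unit_of_sub VA (s36a_const_unit O VA hVA hκA) hu₀A
    rw [h0, map_zero] at this
    exact zero_ne_one this
  -- the three constants have the same `m`-th power modulo `𝔪_O`
  have hmemO : ∀ {x : L}, O.valuation x = 1 → x ∈ O := fun hx => s36c_mem_of_unit O hx
  have hdiff : ∀ (e : L) (ν ν' : L), O.valuation e = 1 → e * ν ^ m - 1 ∈ O.nonunits →
      e * ν' ^ m - 1 ∈ O.nonunits → ν ^ m - ν' ^ m ∈ O.nonunits := by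
    intro e ν ν' he h h'
    have he0 : e ≠ 0 := by
      rintro rfl
      rw [map_zero] at he
      exact zero_ne_one he
    have h3 := s36c_nu_sub O h h'
    have e4 : ν ^ m - ν' ^ m = e⁻¹ * (e * ν ^ m - 1 - (e * ν' ^ m - 1)) := by
      field_simp
      ring
    rw [e4]
    exact s36c_nu_mul' O (hmemO (by rw [map_inv₀, he, inv_one])) h3
  have hab : νF ^ m - νV ^ m ∈ O.nonunits := hdiff e1 νF νV he1 hcνF hcνV
  have hcd : νG ^ m - νU ^ m ∈ O.nonunits := hdiff e2 νG νU he2 hcνG hcνU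
  set a : L := νF ^ m with ha
  set b : L := νV ^ m with hb
  set c' : L := νG ^ m with hc'
  set d : L := νU ^ m with hd
  have haO : a ∈ O := O.pow_mem (hmemO hνF) m
  have hbO : b ∈ O := O.pow_mem (hmemO hνV) m
  have hcO : c' ∈ O := O.pow_mem (hmemO hνG) m
  have hdO : d ∈ O := O.pow_mem (hmemO hνU) m
  set κ0 : L := (νV * νU) ^ (q - 1) * (νF ^ q * νU) with hκ0
  set κ1 : L := (νF * νG) ^ (q - 1) * (νF ^ q * νU) with hκ1
  set κ2 : L := (νV ^ q * νG) * (νF * νG) ^ (q - 1) with hκ2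
  have eκ0 : κ0 ^ m = (b * d) ^ (q - 1) * (a ^ q * d) := by
    rw [hκ0, ha, hb, hd]; ring
  have eκ1 : κ1 ^ m = (a * c') ^ (q - 1) * (a ^ q * d) := by
    rw [hκ1, ha, hc', hd]; ring
  have eκ2 : κ2 ^ m = (b ^ q * c') * (a * c') ^ (q - 1) := by
    rw [hκ2, ha, hb, hc']; ring
  have h10 : κ1 ^ m - κ0 ^ m ∈ O.nonunits := by
    rw [eκ1, eκ0, ← sub_mul]
    refine s36c_nu_mul O ?_ (mul_mem (pow_mem haO q) hdO)
    exact s36c_cong_pow O (mul_mem hbO hdO)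
      (s36c_cong_mul O hbO hcO hab hcd) (q - 1)
  have h21 : κ2 ^ m - κ1 ^ m ∈ O.nonunits := by
    rw [eκ2, eκ1, mul_comm ((a * c') ^ (q - 1)) (a ^ q * d), ← sub_mul]
    refine s36c_nu_mul O ?_ (pow_mem (mul_mem haO hcO) (q - 1))
    exact s36c_cong_mul O (pow_mem haO q) hcO
      (s36c_cong_pow O haO (s36c_cong_symm O hab) q) hcd
  have h20 : κ2 ^ m - κ0 ^ m ∈ O.nonunits := s36c_cong_trans O h21 h10
  have hκ1u : O.valuation κ1 = 1 := by
    simp only [hκ1, map_mul, map_pow, hνG, hνU, hνF, one_pow, mul_one]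
  have hκ2u : O.valuation κ2 = 1 := by
    simp only [hκ2, map_mul, map_pow, hνG, hνV, hνF, one_pow, mul_one]
  have hKu : O.valuation (κ0 ^ m) = 1 := by rw [map_pow, hκA, one_pow]
  have hf1 : ∀ (U : ValuationSubring E), (∀ c : L, algebraMap L E c ∈ U ↔ c ∈ O) →
      f - 1 ∈ U.nonunits → ∀ κ : L, O.valuation κ = 1 → u₀ - algebraMap L E κ ∈ U.nonunits →
      κ ^ m - κ0 ^ m ∈ O.nonunits →
      f ^ (q ^ 2 - 1) * u₀ ^ m - algebraMap L E (κ0 ^ m) ∈ U.nonunits := by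
    intro U hU hfU κ hκ hu hκκ
    have hκU : algebraMap L E κ ∈ U := s36c_mem_of_unit U (s36a_const_unit O U hU hκ)
    have hu₀U : u₀ ^ m ∈ U :=
      U.pow_mem (s36c_mem_of_unit U (s36a_unit_of_sub U (s36a_const_unit O U hU hκ) hu)) m
    have h1 := s36c_cong_mul U U.one_mem hu₀U (s36c_one_pow U hfU (q ^ 2 - 1))
      (s36c_cong_pow U hκU hu m)
    rw [one_mul] at h1
    have h2 : algebraMap L E κ ^ m - algebraMap L E (κ0 ^ m) ∈ U.nonunits := by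
      rw [← map_pow, ← map_sub]
      exact (s36a_const_nonunit O U hU _).2 hκκ
    exact s36c_cong_trans U h1 h2
  have hzero : κ0 ^ m - κ0 ^ m ∈ O.nonunits := by
    rw [sub_self]
    exact O.mem_nonunits_iff.2 (by rw [map_zero]; exact zero_lt_one)
  -- stage 2: the toric seam
  obtain ⟨c, r, hc, hr, hgl⟩ := hglue f hf0 hfA hfB hfC hfH e1 e2 k1 k2 he1 he2 hk1 hk2 hNk1 hNk2
    νF νV νG νU hνF hνV hνG hνU hk1A hk1C hk1B hk2A hk2B hk2C hcνF hcνV hcνG hcνU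
    u₀ hu₀A hu₀B hu₀C (κ0 ^ m) hKu
    (hf1 VA hVA hfA κ0 hκA hu₀A hzero) (hf1 VB hVB hfB κ1 hκ1u hu₀B h10)
    (hf1 VC hVC hfC κ2 hκ2u hu₀C h20)
  -- bookkeeping
  set D1 : ℕ := (q ^ 2 - 1) * Eg with hD1
  have hu₀E : u₀ ^ Eg ≠ 0 := pow_ne_zero _ hu₀0
  refine ⟨c0 ^ D1 * c, R0 ^ D1 * r * (u₀ ^ Eg)⁻¹, mul_ne_zero (pow_ne_zero _ hc0) hc,
    mul_ne_zero (mul_ne_zero (pow_ne_zero _ hR0) hr) (inv_ne_zero hu₀E), ?_⟩
  have e3 : f ^ D1 = algebraMap L E c * r ^ m * ((u₀ ^ Eg) ^ m)⁻¹ := by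
    have hne : (u₀ ^ Eg) ^ m ≠ 0 := pow_ne_zero _ hu₀E
    rw [eq_mul_inv_iff_mul_eq₀ hne, ← hgl, hD1]
    ring
  rw [pow_mul, hfin, mul_pow, mul_pow, e3, map_mul, map_pow, mul_pow, mul_pow, inv_pow]
  ring

end ACore

end Fermat.Agent.S36
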