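/-
Project S36 (Carayol), cell [ACORE] (helper1): the hypotheses of `s36c_core` PACKAGED
(prefix `s36c_`).

* `s36c_G`     : the (G)-list = the valuation-theoretic data of the tower (hypotheses of
                 `s36a_vert_abel3` + (root) at `VA`, `VB` + the two subfields);
* `s36c_Glue`  : the seam to [GLUE-MAIN] (the global toric argument), = `hglue` of `s36c_core`;
* `s36c_core_pack` : `s36c_G → s36c_Glue → (g ↦ g ^ d = C c · r ^ m)`.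
-/
import Mathlib
import Fermat.Agent.S36.ACore.Core

set_option autoImplicit false
set_option linter.unusedSectionVars false
set_option linter.unusedVariables false

namespace Fermat.Agent.S36

section Pack

variable {L E : Type*} [Field L] [Field E] [Algebra L E]

/-- **the (G)-list**: everything `s36c_core` needs about the three vertical valuations, the two
norms and the two subfields. -/
structure s36c_G (O : ValuationSubring L) (VA VB VC : ValuationSubring E) (N1 N2 : E →* E)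
    (K1 K2 : Subfield E) (q m : ℕ) (ordA ordB ordC : E → ℤ) (ϖ : L) (ε : ℤ) (zC : E) : Prop where
  hoA : s36a_Ord VA ordA
  hoB : s36a_Ord VB ordB
  hoC : s36a_Ord VC ordC
  hVA : ∀ c : L, algebraMap L E c ∈ VA ↔ c ∈ O
  hVB : ∀ c : L, algebraMap L E c ∈ VB ↔ c ∈ O
  hVC : ∀ c : L, algebraMap L E c ∈ VC ↔ c ∈ O
  hϖ0 : ϖ ≠ 0
  hϖm : ϖ ∈ O.nonunits
  hε : ε * ε = 1
  hϖA : ordA (algebraMap L E ϖ) = ε
  hϖB : ordB (algebraMap L E ϖ) = ε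
  hϖC : ordC (algebraMap L E ϖ) = ((q : ℤ) - 1) * ε
  hzC0 : zC ≠ 0
  hzC : ordC zC = ε
  hϖO : ∀ c : L, c ≠ 0 → ∃ (j : ℤ) (u : L), O.valuation u = 1 ∧ c = ϖ ^ j * u
  hN1A : ∀ x : E, x ≠ 0 → ordA (N1 x) = ordA x + ordC x
  hN1B : ∀ x : E, x ≠ 0 → ordB (N1 x) = (q : ℤ) * ordB x
  hN2A : ∀ x : E, x ≠ 0 → ordA (N2 x) = (q : ℤ) * ordA x
  hN2B : ∀ x : E, x ≠ 0 → ordB (N2 x) = ordB x + ordC x
  hNc1 : ∀ c : L, N1 (algebraMap L E c) = algebraMap L E c ^ q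
  hNc2 : ∀ c : L, N2 (algebraMap L E c) = algebraMap L E c ^ q
  hWA3 : ∀ x1 x2 x3 y1 y2 y3 : E, ∃ x : E, (x - x1) * y1 ∈ VA.nonunits ∧
    (x - x2) * y2 ∈ VB.nonunits ∧ (x - x3) * y3 ∈ VC.nonunits
  hnA : ∀ x : E, VA.valuation x = 1 → VB.valuation x = 1 → VC.valuation x = 1 →
    N2 x - x ^ q ∈ VA.nonunits
  hnB : ∀ x : E, VA.valuation x = 1 → VB.valuation x = 1 → VC.valuation x = 1 →
    N1 x - x ^ q ∈ VB.nonunits
  hnC1 : ∀ x : E, VA.valuation x = 1 → VB.valuation x = 1 → VC.valuation x = 1 →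
    ∀ r : L, O.valuation r = 1 → x - algebraMap L E r ∈ VA.nonunits →
      N1 x - algebraMap L E r * x ^ (q - 1) ∈ VC.nonunits
  hnC2 : ∀ x : E, VA.valuation x = 1 → VB.valuation x = 1 → VC.valuation x = 1 →
    ∀ r : L, O.valuation r = 1 → x - algebraMap L E r ∈ VB.nonunits →
      N2 x - algebraMap L E r * x ^ (q - 1) ∈ VC.nonunits
  hroot : ∀ y : E, VC.valuation y = 1 → ∀ c : L, O.valuation c = 1 →
    y ^ m - algebraMap L E c ∈ VC.nonunits →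
      ∃ u : L, O.valuation u = 1 ∧ y - algebraMap L E u ∈ VC.nonunits
  hrootA : ∀ y : E, VA.valuation y = 1 → ∀ c : L, O.valuation c = 1 →
    y ^ m - algebraMap L E c ∈ VA.nonunits →
      ∃ u : L, O.valuation u = 1 ∧ y - algebraMap L E u ∈ VA.nonunits
  hrootB : ∀ y : E, VB.valuation y = 1 → ∀ c : L, O.valuation c = 1 →
    y ^ m - algebraMap L E c ∈ VB.nonunits →
      ∃ u : L, O.valuation u = 1 ∧ y - algebraMap L E u ∈ VB.nonunits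
  hN1K : ∀ x : E, N1 x ∈ K1
  hN2K : ∀ x : E, N2 x ∈ K2
  hCK1 : ∀ c : L, algebraMap L E c ∈ K1
  hCK2 : ∀ c : L, algebraMap L E c ∈ K2
  hAC1 : ∀ y : E, y ∈ K1 → (y ∈ VA.nonunits ↔ y ∈ VC.nonunits)
  hBC2 : ∀ y : E, y ∈ K2 → (y ∈ VB.nonunits ↔ y ∈ VC.nonunits)

/-- **the seam to [GLUE-MAIN]** (the global toric argument on the three-component model):
for `f ≡ 1` at `VA VB VC` with `m ∣` its horizontal orders, whose norms are
`N_i f = C c_i · h_i ^ m` (`c_i ∈ O^×`), with the four constants `ν` (reductions of `h_1`, `h_2`)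
and the weak-approximation element `u₀`: `(f ^ (q² - 1) · u₀ ^ m) ^ Eg = C c · r ^ m`. -/
def s36c_Glue (O : ValuationSubring L) (VA VB VC : ValuationSubring E) (N1 N2 : E →* E)
    (q m Eg : ℕ) {ι : Type*} (ordH : ι → E → ℤ) : Prop :=
  ∀ f : E, f ≠ 0 → f - 1 ∈ VA.nonunits → f - 1 ∈ VB.nonunits → f - 1 ∈ VC.nonunits →
    (∀ v, (m : ℤ) ∣ ordH v f) →
    ∀ (c1 c2 : L) (h1 h2 : E), O.valuation c1 = 1 → O.valuation c2 = 1 → h1 ≠ 0 → h2 ≠ 0 →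
      N1 f = algebraMap L E c1 * h1 ^ m → N2 f = algebraMap L E c2 * h2 ^ m →
    ∀ νF νV νG νU : L, O.valuation νF = 1 → O.valuation νV = 1 → O.valuation νG = 1 →
      O.valuation νU = 1 →
      h1 - algebraMap L E νF ∈ VA.nonunits → h1 - algebraMap L E νF ∈ VC.nonunits →
      h1 - algebraMap L E νV ∈ VB.nonunits → h2 - algebraMap L E νG ∈ VA.nonunits →
      h2 - algebraMap L E νU ∈ VB.nonunits → h2 - algebraMap L E νU ∈ VC.nonunits →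
      c1 * νF ^ m - 1 ∈ O.nonunits → c1 * νV ^ m - 1 ∈ O.nonunits →
      c2 * νG ^ m - 1 ∈ O.nonunits → c2 * νU ^ m - 1 ∈ O.nonunits →
    ∀ u₀ : E,
      u₀ - algebraMap L E ((νV * νU) ^ (q - 1) * (νF ^ q * νU)) ∈ VA.nonunits →
      u₀ - algebraMap L E ((νF * νG) ^ (q - 1) * (νF ^ q * νU)) ∈ VB.nonunits →
      u₀ - algebraMap L E ((νV ^ q * νG) * (νF * νG) ^ (q - 1)) ∈ VC.nonunits →
    ∀ K : L, O.valuation K = 1 →
      f ^ (q ^ 2 - 1) * u₀ ^ m - algebraMap L E K ∈ VA.nonunits →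
      f ^ (q ^ 2 - 1) * u₀ ^ m - algebraMap L E K ∈ VB.nonunits →
      f ^ (q ^ 2 - 1) * u₀ ^ m - algebraMap L E K ∈ VC.nonunits →
      ∃ (c : L) (r : E), c ≠ 0 ∧ r ≠ 0 ∧
        (f ^ (q ^ 2 - 1) * u₀ ^ m) ^ Eg = algebraMap L E c * r ^ m

/-- the exponent of the core. -/
def s36c_exp (q Eg : ℕ) : ℕ := (q + 1) * (q ^ 2 - 1) * ((q ^ 2 - 1) * Eg)

theorem s36c_exp_ne_zero {q Eg : ℕ} (hq : 2 ≤ q) (hEg : Eg ≠ 0) : s36c_exp q Eg ≠ 0 := by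
  have h1 : q ^ 2 - 1 ≠ 0 := by
    have : 4 ≤ q ^ 2 := by nlinarith
    omega
  unfold s36c_exp
  exact mul_ne_zero (mul_ne_zero (by omega) h1) (mul_ne_zero h1 hEg)

/-- **[ACORE], packaged form.** -/
theorem s36c_core_pack {O : ValuationSubring L} {VA VB VC : ValuationSubring E} {N1 N2 : E →* E}
    {K1 K2 : Subfield E} {q m : ℕ} {ordA ordB ordC : E → ℤ} {ϖ : L} {ε : ℤ} {zC : E}
    (G : s36c_G O VA VB VC N1 N2 K1 K2 q m ordA ordB ordC ϖ ε zC)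
    (hq : 1 ≤ q) (hm : 1 ≤ m) (hqm : Nat.Coprime q m) (Eg : ℕ)
    {ι : Type*} (ordH : ι → E → ℤ)
    (hHmul : ∀ v (x y : E), x ≠ 0 → y ≠ 0 → ordH v (x * y) = ordH v x + ordH v y)
    (hHC : ∀ v (c : L), c ≠ 0 → ordH v (algebraMap L E c) = 0)
    (hglue : s36c_Glue O VA VB VC N1 N2 q m Eg ordH)
    (g : E) (hg : g ≠ 0) (hgH : ∀ v, (m : ℤ) ∣ ordH v g)
    (c1 c2 : L) (hc1 : c1 ≠ 0) (hc2 : c2 ≠ 0) (r1 r2 : E) (hr1 : r1 ∈ K1) (hr2 : r2 ∈ K2)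
    (h1 : N1 g = algebraMap L E c1 * r1 ^ m) (h2 : N2 g = algebraMap L E c2 * r2 ^ m) :
    ∃ (c : L) (r : E), c ≠ 0 ∧ r ≠ 0 ∧ g ^ s36c_exp q Eg = algebraMap L E c * r ^ m :=
  s36c_core O VA VB VC N1 N2 K1 K2 q m Eg hq hm hqm ordA ordB ordC G.hoA G.hoB G.hoC G.hVA G.hVB
    G.hVC ϖ G.hϖ0 G.hϖm ε G.hε G.hϖA G.hϖB G.hϖC zC G.hzC0 G.hzC G.hϖO G.hN1A G.hN1B G.hN2A G.hN2B
    G.hNc1 G.hNc2 G.hWA3 G.hnA G.hnB G.hnC1 G.hnC2 G.hroot G.hrootA G.hrootB G.hN1K G.hN2K G.hCK1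
    G.hCK2 G.hAC1 G.hBC2 ordH hHmul hHC hglue g hg hgH c1 c2 hc1 hc2 r1 r2 hr1 hr2 h1 h2

end Pack

end Fermat.Agent.S36
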