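/-
Project S36 (Carayol), cell [ACORE] (helper1): from the packaged abstract core to the seams
`s36_CoreAt` / `s36h_CoreAt` of `S36/Seams.lean` (prefix `s36c_`).

`E₁, E₁' ≤ E₂` intermediate fields of `L((X))`; `s36c_normIncl hle : E₂ →* E₂` the norm to `E₁`
followed by the inclusion; `s36c_sub hle : Subfield E₂` the image of `E₁`.
-/
import Mathlib
import Fermat.Agent.S36.Seams
import Fermat.Agent.S36.ACore.Pack
import Fermat.Agent.SS.Kummer

set_option autoImplicit false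
set_option linter.unusedSectionVars false
set_option linter.unusedVariables false
set_option linter.style.haveILetI false

noncomputable section

namespace Fermat.Agent.S36

open ModularCurve AlgebraicCurve IntermediateField Fermat.Agent.JT3 Fermat.Agent.SS

section Gen

variable {L : Type*} [Field L] {E1 E1' E2 : IntermediateField L (LaurentSeries L)}

/-- the norm to the subfield `E₁` followed by the inclusion, as a monoid homomorphism of `E₂`. -/
def s36c_normIncl (hle : E1 ≤ E2) : ↥E2 →* ↥E2 :=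
  letI := ssm_gi_algebra hle
  ((IntermediateField.inclusion hle : ↥E1 →ₐ[L] ↥E2) : ↥E1 →* ↥E2).comp (Algebra.norm ↥E1)

theorem s36c_normIncl_apply (hle : E1 ≤ E2) (g : ↥E2) :
    letI := ssm_gi_algebra hle
    s36c_normIncl hle g = IntermediateField.inclusion hle (Algebra.norm ↥E1 g) := rfl

/-- the image of `E₁` in `E₂`, as a subfield. -/
def s36c_sub (hle : E1 ≤ E2) : Subfield ↥E2 :=
  (IntermediateField.inclusion hle : ↥E1 →ₐ[L] ↥E2).fieldRange.toSubfield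

theorem s36c_mem_sub (hle : E1 ≤ E2) (y : ↥E1) : IntermediateField.inclusion hle y ∈ s36c_sub hle :=
  ⟨y, rfl⟩

theorem s36c_mem_sub_iff (hle : E1 ≤ E2) (z : ↥E2) :
    z ∈ s36c_sub hle ↔ (z : LaurentSeries L) ∈ E1 := by
  constructor
  · rintro ⟨y, rfl⟩
    exact y.2
  · intro h
    exact ⟨⟨(z : LaurentSeries L), h⟩, rfl⟩

theorem s36c_normIncl_mem (hle : E1 ≤ E2) (g : ↥E2) : s36c_normIncl hle g ∈ s36c_sub hle :=
  s36c_mem_sub hle _

theorem s36c_const_mem_sub (hle : E1 ≤ E2) (c : L) : algebraMap L ↥E2 c ∈ s36c_sub hle :=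
  ⟨algebraMap L ↥E1 c, rfl⟩

/-- **generic adaptor**: the packaged core gives the `CoreAt`-shaped statement. -/
theorem s36c_coreAt_gen (hle : E1 ≤ E2) (hle' : E1' ≤ E2) {O : ValuationSubring L}
    {VA VB VC : ValuationSubring ↥E2} {q m : ℕ} {ordA ordB ordC : ↥E2 → ℤ} {ϖ : L} {ε : ℤ}
    {zC : ↥E2}
    (G : s36c_G O VA VB VC (s36c_normIncl hle) (s36c_normIncl hle') (s36c_sub hle) (s36c_sub hle')
      q m ordA ordB ordC ϖ ε zC)
    (hq : 1 ≤ q) (hm : 1 ≤ m) (hqm : Nat.Coprime q m) (Eg : ℕ)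
    (hglue : s36c_Glue O VA VB VC (s36c_normIncl hle) (s36c_normIncl hle') q m Eg
      (fun (v : Place L ↥E2) => v.ord))
    (g : ↥E2) (hg : g ≠ 0) (hord : ∀ v : Place L ↥E2, (m : ℤ) ∣ v.ord g)
    (hn1 : ∃ (c : L) (r : ↥E1), r ≠ 0 ∧
      (letI := ssm_gi_algebra hle; Algebra.norm ↥E1 g) = algebraMap L ↥E1 c * r ^ m)
    (hn2 : ∃ (c : L) (r : ↥E1'), r ≠ 0 ∧
      (letI := ssm_gi_algebra hle'; Algebra.norm ↥E1' g) = algebraMap L ↥E1' c * r ^ m) :
    ∃ (c : L) (r : ↥E2), r ≠ 0 ∧ g ^ s36c_exp q Eg = algebraMap L ↥E2 c * r ^ m := by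
  obtain ⟨c1, r1, hr1, h1⟩ := hn1
  obtain ⟨c2, r2, hr2, h2⟩ := hn2
  have key : ∀ {F1 : IntermediateField L (LaurentSeries L)} (hF : F1 ≤ E2) (c : L) (r : ↥F1),
      (letI := ssm_gi_algebra hF; Algebra.norm ↥F1 g) = algebraMap L ↥F1 c * r ^ m →
      c ≠ 0 ∧ s36c_normIncl hF g =
        algebraMap L ↥E2 c * (IntermediateField.inclusion hF r) ^ m := by
    intro F1 hF c r h
    have e : s36c_normIncl hF g =
        algebraMap L ↥E2 c * (IntermediateField.inclusion hF r) ^ m := by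
      rw [s36c_normIncl_apply, h, map_mul, map_pow]
      rfl
    refine ⟨?_, e⟩
    rintro rfl
    rw [map_zero, zero_mul] at e
    exact s36a_map_ne_zero (s36c_normIncl hF) hg e
  obtain ⟨hc1, e1⟩ := key hle c1 r1 h1
  obtain ⟨hc2, e2⟩ := key hle' c2 r2 h2
  obtain ⟨c, r, hc, hr, hfin⟩ := s36c_core_pack G hq hm hqm Eg (fun (v : Place L ↥E2) => v.ord)
    (fun v x y hx hy => v.ord_mul hx hy) (fun v c hc => ssk_ord_algebraMap v hc) hglue g hg hord
    c1 c2 hc1 hc2 _ _ (s36c_mem_sub hle r1) (s36c_mem_sub hle' r2) e1 e2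
  exact ⟨c, r, hr, hfin⟩

end Gen

section Legendre

variable {L : Type*} [Field L] [CharZero L] [Algebra L (AlgebraicClosure ℚ)]
  (N' q : ℕ) [NeZero N'] [NeZero q] (hq2 : ¬ 2 ∣ q)

/-- **Legendre adaptor**: `s36_CoreAt` from the (G)-list and the [GLUE-MAIN] seam on
`E₂ = lg_E L (N' q q)`, `N₁ = s36c_normIncl (E₁ ≤ E₂)`, `N₂ = s36c_normIncl (β E₁ ≤ E₂)`. -/
theorem s36c_coreAt_of {O : ValuationSubring L}
    {VA VB VC : ValuationSubring ↥(lg_E L (N' * q * q))} {m : ℕ}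
    {ordA ordB ordC : ↥(lg_E L (N' * q * q)) → ℤ} {ϖ : L} {ε : ℤ} {zC : ↥(lg_E L (N' * q * q))}
    (G : s36c_G O VA VB VC (s36c_normIncl (ssm_al_E_le L (N' * q) q))
      (s36c_normIncl (ssm_al_E_beta_le L (N' * q) q hq2)) (s36c_sub (ssm_al_E_le L (N' * q) q))
      (s36c_sub (ssm_al_E_beta_le L (N' * q) q hq2)) q m ordA ordB ordC ϖ ε zC)
    (hq : 1 ≤ q) (hm : 1 ≤ m) (hqm : Nat.Coprime q m) (Eg : ℕ)
    (hglue : s36c_Glue O VA VB VC (s36c_normIncl (ssm_al_E_le L (N' * q) q))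
      (s36c_normIncl (ssm_al_E_beta_le L (N' * q) q hq2)) q m Eg
      (fun (v : Place L ↥(lg_E L (N' * q * q))) => v.ord)) :
    s36_CoreAt (L := L) N' q hq2 m (s36c_exp q Eg) := by
  rintro g ⟨hg, hord, hn1, hn2⟩
  exact s36c_coreAt_gen (ssm_al_E_le L (N' * q) q) (ssm_al_E_beta_le L (N' * q) q hq2) G hq hm hqm
    Eg hglue g hg hord hn1 hn2

end Legendre

section Hesse

variable {L : Type*} [Field L] [CharZero L] [Algebra L (AlgebraicClosure ℚ)] (h3 : (3 : L) ≠ 0)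
  (N' q : ℕ) [NeZero N'] [NeZero q] (hq3 : ¬ 3 ∣ q)

/-- **Hesse adaptor**: `s36h_CoreAt` from the (G)-list and the [GLUE-MAIN] seam on
`E₂ = hs_E L h3 (N' q q)`. -/
theorem s36c_h_coreAt_of {O : ValuationSubring L}
    {VA VB VC : ValuationSubring ↥(hs_E L h3 (N' * q * q))} {m : ℕ}
    {ordA ordB ordC : ↥(hs_E L h3 (N' * q * q)) → ℤ} {ϖ : L} {ε : ℤ}
    {zC : ↥(hs_E L h3 (N' * q * q))}
    (G : s36c_G O VA VB VC (s36c_normIncl (ssm_alh_E_le L h3 (ssm_fh_hF9 h3) (N' * q) q))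
      (s36c_normIncl (ssm_alh_E_beta_le L h3 (ssm_fh_hF9 h3) (N' * q) q hq3))
      (s36c_sub (ssm_alh_E_le L h3 (ssm_fh_hF9 h3) (N' * q) q))
      (s36c_sub (ssm_alh_E_beta_le L h3 (ssm_fh_hF9 h3) (N' * q) q hq3)) q m ordA ordB ordC ϖ ε zC)
    (hq : 1 ≤ q) (hm : 1 ≤ m) (hqm : Nat.Coprime q m) (Eg : ℕ)
    (hglue : s36c_Glue O VA VB VC (s36c_normIncl (ssm_alh_E_le L h3 (ssm_fh_hF9 h3) (N' * q) q))
      (s36c_normIncl (ssm_alh_E_beta_le L h3 (ssm_fh_hF9 h3) (N' * q) q hq3)) q m Eg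
      (fun (v : Place L ↥(hs_E L h3 (N' * q * q))) => v.ord)) :
    s36h_CoreAt (L := L) h3 N' q hq3 m (s36c_exp q Eg) := by
  rintro g ⟨hg, hord, hn1, hn2⟩
  exact s36c_coreAt_gen (ssm_alh_E_le L h3 (ssm_fh_hF9 h3) (N' * q) q)
    (ssm_alh_E_beta_le L h3 (ssm_fh_hF9 h3) (N' * q) q hq3) G hq hm hqm Eg hglue g hg hord hn1 hn2

end Hesse

end Fermat.Agent.S36
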