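/-
Project S36 (Carayol), cell [ACORE]/[GLUE-MAIN] (helper1): THE GLOBAL STEP OF THE TORIC ARGUMENT
(prefix `s36c_`).

Input: the (S)-list of `sfc_main`, a finite family `V i` of vertical valuations computing `ϖ O`
on the overlap chart, and an element `F₁` (in the application `F₁ = f ^ (q² - 1) · u₀ ^ m`) which is
`≡ K` (ONE constant unit) at every `V i`, together with the local hypothesis of `sfc_main` for
`F₁ ^ Q` at every closed point of the two charts (an ABSTRACT per-point input: triple points,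
one-branch points, ...).  Output: `F₁ ^ (Q · q) = C c · g ^ m`.

Proof: `sfc_main` applied to `F := (F₁ · K⁻¹) ^ (Q q)`; the local hypotheses for `F` are the `q`-th
powers of those for `F₁ ^ Q`; `h4a` (`F ≡ 1 mod ϖ O`) by the `q`-th power trick
`(1 + y) ^ q = 1 + y ^ q + q r`.
-/
import Mathlib
import Fermat.Agent.SS.SFC.Main
import Fermat.Agent.S36.Glue.Crt
import Fermat.Agent.S36.ACore.Cong

set_option autoImplicit false
set_option linter.unusedSectionVars false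
set_option linter.unusedVariables false
set_option maxHeartbeats 1000000

namespace Fermat.Agent.S36

open Fermat.Agent.JT3 Fermat.Agent.SS

section QPow

variable {E : Type*} [Field E]

/-- **the `q`-th power trick**: `a ≡ 1 mod 𝔪(V)`, `q ∈ ϖ V`, `𝔪(V) ^ q ⊆ ϖ V` ⟹
`a ^ q ≡ 1 mod ϖ V`. -/
theorem s36c_pow_sub_one_mem (V : ValuationSubring E) (ϖ : E) {q : ℕ} (hq : q.Prime)
    (hqϖ : ϖ⁻¹ * (q : E) ∈ V) (hram : ∀ z ∈ V.nonunits, ϖ⁻¹ * z ^ q ∈ V) {a : E}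
    (ha : a - 1 ∈ V.nonunits) : ϖ⁻¹ * (a ^ q - 1) ∈ V := by
  have hy : a - 1 ∈ V := V.nonunits_subset ha
  obtain ⟨r, hr⟩ := s36g_add_pow_prime_pow hq (1 : V) (⟨a - 1, hy⟩ : V) 1
  have hr' : (1 + (a - 1)) ^ q = 1 + (a - 1) ^ q + (q : E) * (r : E) := by
    have := congrArg (Subtype.val : V → E) hr
    simpa using this
  have e : ϖ⁻¹ * (a ^ q - 1) = ϖ⁻¹ * (a - 1) ^ q + ϖ⁻¹ * (q : E) * (r : E) := by
    have h1 : a ^ q = 1 + (a - 1) ^ q + (q : E) * (r : E) := by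
      rw [← hr']
      congr 1
      ring
    rw [h1]
    ring
  rw [e]
  exact V.add_mem _ _ (hram _ ha) (V.mul_mem _ _ hqϖ r.2)

end QPow

section HlocPow

variable {A0 : Type*} [CommRing A0] {F0 : Type*} [Field F0] [Algebra A0 F0]

/-- the local hypothesis of `sfc_main` for `F` gives the one for `F ^ n · C κ` (any `κ : A0`). -/
theorem s36c_hloc_pow {B : Subalgebra A0 F0} (π : A0) (m : ℕ) (F : F0) (κ : A0) (n : ℕ)
    (𝔫 : Ideal B) [h𝔫 : 𝔫.IsPrime]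
    (h : ∃ (b1 : B) (h : F0), b1 ∉ 𝔫 ∧ h ^ m * F ∈ B ∧
      h - (b1 : F0) ∈ sfc_piO B.toSubring (algebraMap A0 F0 π)) :
    ∃ (b1 : B) (h : F0), b1 ∉ 𝔫 ∧ h ^ m * (F ^ n * algebraMap A0 F0 κ) ∈ B ∧
      h - (b1 : F0) ∈ sfc_piO B.toSubring (algebraMap A0 F0 π) := by
  obtain ⟨b1, h, hb1, hB, hh⟩ := h
  set ϖ := algebraMap A0 F0 π with hϖ
  have hϖB : ϖ ∈ B.toSubring := B.algebraMap_mem π
  have hb1O : (b1 : F0) ∈ sfc_O B.toSubring ϖ := sfc_le_O b1.2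
  have hhO : h ∈ sfc_O B.toSubring ϖ := by
    have := add_mem (sfc_piO_subset hϖB hh) hb1O
    rwa [sub_add_cancel] at this
  refine ⟨b1 ^ n, h ^ n, fun hmem => hb1 (h𝔫.mem_of_pow_mem n hmem), ?_, ?_⟩
  · have e : (h ^ n) ^ m * (F ^ n * algebraMap A0 F0 κ) =
        (h ^ m * F) ^ n * algebraMap A0 F0 κ := by ring
    rw [e]
    exact B.mul_mem (B.pow_mem hB n) (B.algebraMap_mem κ)
  · -- `h ^ n - b1 ^ n = (h - b1) * (...)`
    obtain ⟨c, hc⟩ := sub_dvd_pow_sub_pow (⟨h, hhO⟩ : sfc_O B.toSubring ϖ)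
      (⟨(b1 : F0), hb1O⟩ : sfc_O B.toSubring ϖ) n
    have hc' : h ^ n - (b1 : F0) ^ n = (h - (b1 : F0)) * (c : F0) := by
      have := congrArg (Subtype.val : sfc_O B.toSubring ϖ → F0) hc
      simpa using this
    have e : h ^ n - ((b1 ^ n : B) : F0) = (c : F0) * (h - (b1 : F0)) := by
      push_cast
      rw [hc', mul_comm]
    rw [e]
    exact sfc_piO_mul_left c.2 hh

end HlocPow

section Global

universe v

variable {A0 : Type*} [CommRing A0] [IsDomain A0] [IsNoetherianRing A0]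
  {F0 : Type v} [Field F0] [Algebra A0 F0]

/-- **[GLUE-MAIN], the global step.** -/
theorem s36c_glue_global (π : A0) {x : F0} (hx : x ≠ 0) (m : ℕ) (hm : IsUnit (m : A0))
    [Algebra.IsAlgebraic (Algebra.adjoin A0 ({x} : Set F0)) F0]
    (hfin1 : Module.Finite (Algebra.adjoin A0 ({x} : Set F0))
      (integralClosure (Algebra.adjoin A0 ({x} : Set F0)) F0))
    (hnu : (algebraMap A0 F0 π)⁻¹ ∉ fc_chart A0 ({x, x⁻¹} : Set F0))
    (hxS1 : x ∈ sfc_S (fc_chart A0 ({x} : Set F0)).toSubring (algebraMap A0 F0 π))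
    (hxS2 : x⁻¹ ∈ sfc_S (fc_chart A0 ({x⁻¹} : Set F0)).toSubring (algebraMap A0 F0 π))
    (hH0 : ∀ z : F0, z ∈ fc_chart A0 ({x} : Set F0) → z ∈ fc_chart A0 ({x⁻¹} : Set F0) →
      z ∈ (algebraMap A0 F0).range)
    {ι : Type*} (V : ι → ValuationSubring F0)
    (hpiO : ∀ z : F0, (∀ i, (algebraMap A0 F0 π)⁻¹ * z ∈ V i) →
      z ∈ sfc_piO (fc_chart A0 ({x, x⁻¹} : Set F0)).toSubring (algebraMap A0 F0 π))
    {q : ℕ} (hq : q.Prime) (hqπ : ∀ i, (algebraMap A0 F0 π)⁻¹ * (q : F0) ∈ V i)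
    (hram : ∀ i, ∀ z ∈ (V i).nonunits, (algebraMap A0 F0 π)⁻¹ * z ^ q ∈ V i)
    (hA0V : ∀ i (a : A0), algebraMap A0 F0 a ∈ V i)
    (F₁ : F0) (K : A0ˣ) (hF₁ : ∀ i, F₁ - algebraMap A0 F0 (K : A0) ∈ (V i).nonunits) (Q : ℕ)
    (hloc1 : ∀ 𝔫 : Ideal (fc_chart A0 ({x} : Set F0)), 𝔫.IsMaximal →
      algebraMap A0 (fc_chart A0 ({x} : Set F0)) π ∈ 𝔫 →
      ∃ (b1 : fc_chart A0 ({x} : Set F0)) (h : F0), b1 ∉ 𝔫 ∧
        h ^ m * F₁ ^ Q ∈ fc_chart A0 ({x} : Set F0) ∧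
        h - (b1 : F0) ∈ sfc_piO (fc_chart A0 ({x} : Set F0)).toSubring (algebraMap A0 F0 π))
    (hloc2 : ∀ 𝔫 : Ideal (fc_chart A0 ({x⁻¹} : Set F0)), 𝔫.IsMaximal →
      algebraMap A0 (fc_chart A0 ({x⁻¹} : Set F0)) π ∈ 𝔫 →
      ∃ (b1 : fc_chart A0 ({x⁻¹} : Set F0)) (h : F0), b1 ∉ 𝔫 ∧
        h ^ m * F₁ ^ Q ∈ fc_chart A0 ({x⁻¹} : Set F0) ∧
        h - (b1 : F0) ∈ sfc_piO (fc_chart A0 ({x⁻¹} : Set F0)).toSubring (algebraMap A0 F0 π)) :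
    ∃ (c : A0) (g : F0), g ≠ 0 ∧ F₁ ^ (Q * q) = algebraMap A0 F0 c * g ^ m := by
  set ϖ := algebraMap A0 F0 π with hϖ
  set κ : A0 := ((K⁻¹ : A0ˣ) : A0) ^ (Q * q) with hκ
  set F : F0 := F₁ ^ (Q * q) * algebraMap A0 F0 κ with hF
  have hKK : algebraMap A0 F0 (K : A0) * algebraMap A0 F0 ((K⁻¹ : A0ˣ) : A0) = 1 := by
    rw [← map_mul, ← Units.val_mul, mul_inv_cancel, Units.val_one, map_one]
  have hK0 : algebraMap A0 F0 (K : A0) ≠ 0 := left_ne_zero_of_mul_eq_one hKK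
  -- the local hypotheses for `F`
  have hl1 : ∀ 𝔫 : Ideal (fc_chart A0 ({x} : Set F0)), 𝔫.IsMaximal →
      algebraMap A0 (fc_chart A0 ({x} : Set F0)) π ∈ 𝔫 →
      ∃ (b1 : fc_chart A0 ({x} : Set F0)) (h : F0), b1 ∉ 𝔫 ∧
        h ^ m * F ∈ fc_chart A0 ({x} : Set F0) ∧
        h - (b1 : F0) ∈ sfc_piO (fc_chart A0 ({x} : Set F0)).toSubring ϖ := by
    intro 𝔫 h𝔫 hπ𝔫
    have h𝔫p := h𝔫.isPrime
    have := s36c_hloc_pow π m (F₁ ^ Q) κ q 𝔫 (hloc1 𝔫 h𝔫 hπ𝔫)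
    rwa [← pow_mul] at this
  have hl2 : ∀ 𝔫 : Ideal (fc_chart A0 ({x⁻¹} : Set F0)), 𝔫.IsMaximal →
      algebraMap A0 (fc_chart A0 ({x⁻¹} : Set F0)) π ∈ 𝔫 →
      ∃ (b1 : fc_chart A0 ({x⁻¹} : Set F0)) (h : F0), b1 ∉ 𝔫 ∧
        h ^ m * F ∈ fc_chart A0 ({x⁻¹} : Set F0) ∧
        h - (b1 : F0) ∈ sfc_piO (fc_chart A0 ({x⁻¹} : Set F0)).toSubring ϖ := by
    intro 𝔫 h𝔫 hπ𝔫
    have h𝔫p := h𝔫.isPrime
    have := s36c_hloc_pow π m (F₁ ^ Q) κ q 𝔫 (hloc2 𝔫 h𝔫 hπ𝔫)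
    rwa [← pow_mul] at this
  -- `F ≡ 1 mod ϖ O`
  have h4a : F - 1 ∈ sfc_piO (fc_chart A0 ({x, x⁻¹} : Set F0)).toSubring ϖ := by
    apply hpiO
    intro i
    set a : F0 := (F₁ * algebraMap A0 F0 ((K⁻¹ : A0ˣ) : A0)) ^ Q with ha
    have hFa : F = a ^ q := by
      rw [hF, hκ, ha, map_pow]
      ring
    have h1 : F₁ * algebraMap A0 F0 ((K⁻¹ : A0ˣ) : A0) - 1 ∈ (V i).nonunits := by
      have e : F₁ * algebraMap A0 F0 ((K⁻¹ : A0ˣ) : A0) - 1 =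
          (F₁ - algebraMap A0 F0 (K : A0)) * algebraMap A0 F0 ((K⁻¹ : A0ˣ) : A0) := by
        rw [sub_mul, hKK]
      rw [e]
      exact s36c_nu_mul (V i) (hF₁ i) (hA0V i _)
    have h2 : a - 1 ∈ (V i).nonunits := s36c_one_pow (V i) h1 Q
    rw [hFa]
    exact s36c_pow_sub_one_mem (V i) ϖ hq (hqπ i) (hram i) h2
  obtain ⟨c, g, hg, hcg⟩ := sfc_main π hx m hm F hfin1 hnu hxS1 hxS2 hl1 hl2 h4a hH0
  refine ⟨c * (K : A0) ^ (Q * q), g, hg, ?_⟩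
  have hκK : algebraMap A0 F0 κ * algebraMap A0 F0 ((K : A0) ^ (Q * q)) = 1 := by
    rw [hκ, ← map_mul, ← mul_pow, ← Units.val_mul, inv_mul_cancel, Units.val_one, one_pow, map_one]
  calc F₁ ^ (Q * q) = F * algebraMap A0 F0 ((K : A0) ^ (Q * q)) := by
        rw [hF, mul_assoc, hκK, mul_one]
    _ = algebraMap A0 F0 (c * (K : A0) ^ (Q * q)) * g ^ m := by
        rw [hcg, map_mul]
        ring

end Global

end Fermat.Agent.S36
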