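/-
Project S36 (Carayol), cell [ACORE]/[GLUE-MAIN] (helper1): THE SEAM `s36c_Glue` FROM THE
PER-POINT LOCAL HYPOTHESES (prefix `s36c_`).

`s36c_HlocAll` : for every `f`-datum of the seam `s36c_Glue` (`f ≡ 1` at `VA VB VC`, norms, the
four constants, `u₀`, `K`), the local hypothesis of `sfc_main` for
`(f ^ (q² - 1) · u₀ ^ m) ^ Q` holds at every closed point `𝔫 ∋ π` of the two charts.
`s36c_glue_of_hloc` : `s36c_HlocAll` + the (S)-list + `ϖ O = ϖ VA ∩ ϖ VB ∩ ϖ VC` ⟹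
`s36c_Glue … (Q * q) …`.
-/
import Mathlib
import Fermat.Agent.S36.ACore.Global
import Fermat.Agent.S36.ACore.Pack

set_option autoImplicit false
set_option linter.unusedSectionVars false
set_option linter.unusedVariables false
set_option maxHeartbeats 1000000

namespace Fermat.Agent.S36

open Fermat.Agent.JT3 Fermat.Agent.SS

section GlueOf

universe v

variable {L : Type*} [Field L] {F0 : Type v} [Field F0] [Algebra L F0]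

/-- the per-point input of [GLUE-MAIN]: for every datum of the seam, `sfc_main`'s local hypothesis
for `(f ^ (q² - 1) · u₀ ^ m) ^ Q` at every closed point of the two charts over `π`. -/
def s36c_HlocAll (O : ValuationSubring L) [Algebra ↥O F0] (VA VB VC : ValuationSubring F0)
    (N1 N2 : F0 →* F0) (q m Q : ℕ) {ι : Type*} (ordH : ι → F0 → ℤ) (π : ↥O) (x : F0) : Prop :=
  ∀ f : F0, f ≠ 0 → f - 1 ∈ VA.nonunits → f - 1 ∈ VB.nonunits → f - 1 ∈ VC.nonunits →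
    (∀ v, (m : ℤ) ∣ ordH v f) →
    ∀ (c1 c2 : L) (h1 h2 : F0), O.valuation c1 = 1 → O.valuation c2 = 1 → h1 ≠ 0 → h2 ≠ 0 →
      N1 f = algebraMap L F0 c1 * h1 ^ m → N2 f = algebraMap L F0 c2 * h2 ^ m →
    ∀ νF νV νG νU : L, O.valuation νF = 1 → O.valuation νV = 1 → O.valuation νG = 1 →
      O.valuation νU = 1 →
      h1 - algebraMap L F0 νF ∈ VA.nonunits → h1 - algebraMap L F0 νF ∈ VC.nonunits →
      h1 - algebraMap L F0 νV ∈ VB.nonunits → h2 - algebraMap L F0 νG ∈ VA.nonunits →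
      h2 - algebraMap L F0 νU ∈ VB.nonunits → h2 - algebraMap L F0 νU ∈ VC.nonunits →
      c1 * νF ^ m - 1 ∈ O.nonunits → c1 * νV ^ m - 1 ∈ O.nonunits →
      c2 * νG ^ m - 1 ∈ O.nonunits → c2 * νU ^ m - 1 ∈ O.nonunits →
    ∀ u₀ : F0,
      u₀ - algebraMap L F0 ((νV * νU) ^ (q - 1) * (νF ^ q * νU)) ∈ VA.nonunits →
      u₀ - algebraMap L F0 ((νF * νG) ^ (q - 1) * (νF ^ q * νU)) ∈ VB.nonunits →
      u₀ - algebraMap L F0 ((νV ^ q * νG) * (νF * νG) ^ (q - 1)) ∈ VC.nonunits →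
    ∀ K : L, O.valuation K = 1 →
      f ^ (q ^ 2 - 1) * u₀ ^ m - algebraMap L F0 K ∈ VA.nonunits →
      f ^ (q ^ 2 - 1) * u₀ ^ m - algebraMap L F0 K ∈ VB.nonunits →
      f ^ (q ^ 2 - 1) * u₀ ^ m - algebraMap L F0 K ∈ VC.nonunits →
      (∀ 𝔫 : Ideal (fc_chart ↥O ({x} : Set F0)), 𝔫.IsMaximal →
        algebraMap ↥O (fc_chart ↥O ({x} : Set F0)) π ∈ 𝔫 →
        ∃ (b1 : fc_chart ↥O ({x} : Set F0)) (h : F0), b1 ∉ 𝔫 ∧
          h ^ m * (f ^ (q ^ 2 - 1) * u₀ ^ m) ^ Q ∈ fc_chart ↥O ({x} : Set F0) ∧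
          h - (b1 : F0) ∈ sfc_piO (fc_chart ↥O ({x} : Set F0)).toSubring (algebraMap ↥O F0 π)) ∧
      (∀ 𝔫 : Ideal (fc_chart ↥O ({x⁻¹} : Set F0)), 𝔫.IsMaximal →
        algebraMap ↥O (fc_chart ↥O ({x⁻¹} : Set F0)) π ∈ 𝔫 →
        ∃ (b1 : fc_chart ↥O ({x⁻¹} : Set F0)) (h : F0), b1 ∉ 𝔫 ∧
          h ^ m * (f ^ (q ^ 2 - 1) * u₀ ^ m) ^ Q ∈ fc_chart ↥O ({x⁻¹} : Set F0) ∧
          h - (b1 : F0) ∈ sfc_piO (fc_chart ↥O ({x⁻¹} : Set F0)).toSubring (algebraMap ↥O F0 π))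

/-- **the seam `s36c_Glue` from the per-point local hypotheses.** -/
theorem s36c_glue_of_hloc (O : ValuationSubring L) [IsNoetherianRing ↥O] [Algebra ↥O F0]
    [IsScalarTower ↥O L F0] (VA VB VC : ValuationSubring F0) (N1 N2 : F0 →* F0) (q m Q : ℕ)
    {ι : Type*} (ordH : ι → F0 → ℤ) (π : ↥O) {x : F0} (hx : x ≠ 0)
    (hm : IsUnit ((m : ℕ) : ↥O))
    [Algebra.IsAlgebraic (Algebra.adjoin ↥O ({x} : Set F0)) F0]
    (hfin1 : Module.Finite (Algebra.adjoin ↥O ({x} : Set F0))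
      (integralClosure (Algebra.adjoin ↥O ({x} : Set F0)) F0))
    (hnu : (algebraMap ↥O F0 π)⁻¹ ∉ fc_chart ↥O ({x, x⁻¹} : Set F0))
    (hxS1 : x ∈ sfc_S (fc_chart ↥O ({x} : Set F0)).toSubring (algebraMap ↥O F0 π))
    (hxS2 : x⁻¹ ∈ sfc_S (fc_chart ↥O ({x⁻¹} : Set F0)).toSubring (algebraMap ↥O F0 π))
    (hH0 : ∀ z : F0, z ∈ fc_chart ↥O ({x} : Set F0) → z ∈ fc_chart ↥O ({x⁻¹} : Set F0) →
      z ∈ (algebraMap ↥O F0).range)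
    (hpiO : ∀ z : F0, (algebraMap ↥O F0 π)⁻¹ * z ∈ VA → (algebraMap ↥O F0 π)⁻¹ * z ∈ VB →
      (algebraMap ↥O F0 π)⁻¹ * z ∈ VC →
      z ∈ sfc_piO (fc_chart ↥O ({x, x⁻¹} : Set F0)).toSubring (algebraMap ↥O F0 π))
    (hq : q.Prime)
    (hqA : (algebraMap ↥O F0 π)⁻¹ * (q : F0) ∈ VA) (hqB : (algebraMap ↥O F0 π)⁻¹ * (q : F0) ∈ VB)
    (hqC : (algebraMap ↥O F0 π)⁻¹ * (q : F0) ∈ VC)
    (hramA : ∀ z ∈ VA.nonunits, (algebraMap ↥O F0 π)⁻¹ * z ^ q ∈ VA)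
    (hramB : ∀ z ∈ VB.nonunits, (algebraMap ↥O F0 π)⁻¹ * z ^ q ∈ VB)
    (hramC : ∀ z ∈ VC.nonunits, (algebraMap ↥O F0 π)⁻¹ * z ^ q ∈ VC)
    (hVA : ∀ c : L, algebraMap L F0 c ∈ VA ↔ c ∈ O)
    (hVB : ∀ c : L, algebraMap L F0 c ∈ VB ↔ c ∈ O)
    (hVC : ∀ c : L, algebraMap L F0 c ∈ VC ↔ c ∈ O)
    (HL : s36c_HlocAll O VA VB VC N1 N2 q m Q ordH π x) :
    s36c_Glue O VA VB VC N1 N2 q m (Q * q) ordH := by
  intro f hf0 hfA hfB hfC hfH c1 c2 h1 h2 hc1 hc2 hh1 hh2 hN1 hN2 νF νV νG νU hνF hνV hνG hνU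
    e1 e2 e3 e4 e5 e6 k1 k2 k3 k4 u₀ hu1 hu2 hu3 K hK hKA hKB hKC
  obtain ⟨hl1, hl2⟩ := HL f hf0 hfA hfB hfC hfH c1 c2 h1 h2 hc1 hc2 hh1 hh2 hN1 hN2 νF νV νG νU
    hνF hνV hνG hνU e1 e2 e3 e4 e5 e6 k1 k2 k3 k4 u₀ hu1 hu2 hu3 K hK hKA hKB hKC
  -- `K` as a unit of `↥O`
  have hKO : K ∈ O := s36c_mem_of_unit O hK
  have hKinv : K⁻¹ ∈ O := s36c_mem_of_unit O (by rw [map_inv₀, hK, inv_one])
  have hK0 : K ≠ 0 := by
    rintro rfl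
    rw [map_zero] at hK
    exact zero_ne_one hK
  let Ku : (↥O)ˣ := ⟨⟨K, hKO⟩, ⟨K⁻¹, hKinv⟩, Subtype.ext (mul_inv_cancel₀ hK0),
    Subtype.ext (inv_mul_cancel₀ hK0)⟩
  have hcoe : ∀ a : ↥O, algebraMap ↥O F0 a = algebraMap L F0 (a : L) := fun a =>
    IsScalarTower.algebraMap_apply ↥O L F0 a
  have hKu : algebraMap ↥O F0 (Ku : ↥O) = algebraMap L F0 K := hcoe _
  set F₁ : F0 := f ^ (q ^ 2 - 1) * u₀ ^ m with hF₁
  let V : Fin 3 → ValuationSubring F0 := ![VA, VB, VC]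
  have hall : ∀ {p : Fin 3 → Prop}, p 0 → p 1 → p 2 → ∀ i, p i := by
    intro p h0 h1 h2 i
    fin_cases i
    exacts [h0, h1, h2]
  obtain ⟨c, g, hg, hcg⟩ := s36c_glue_global (A0 := ↥O) π hx m hm hfin1 hnu hxS1 hxS2 hH0 V
    (fun z hz => hpiO z (hz 0) (hz 1) (hz 2)) hq
    (hall (p := fun i => (algebraMap ↥O F0 π)⁻¹ * (q : F0) ∈ V i) hqA hqB hqC)
    (hall (p := fun i => ∀ z ∈ (V i).nonunits, (algebraMap ↥O F0 π)⁻¹ * z ^ q ∈ V i)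
      hramA hramB hramC)
    (hall (p := fun i => ∀ a : ↥O, algebraMap ↥O F0 a ∈ V i)
      (fun a => by rw [hcoe]; exact (hVA _).2 a.2) (fun a => by rw [hcoe]; exact (hVB _).2 a.2)
      (fun a => by rw [hcoe]; exact (hVC _).2 a.2))
    F₁ Ku
    (hall (p := fun i => F₁ - algebraMap ↥O F0 (Ku : ↥O) ∈ (V i).nonunits)
      (by rw [hKu]; exact hKA) (by rw [hKu]; exact hKB) (by rw [hKu]; exact hKC))
    Q hl1 hl2
  have hF₁0 : F₁ ≠ 0 := by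
    intro h0
    have hKV : VA.valuation (algebraMap L F0 K) = 1 := s36a_const_unit O VA hVA hK
    have := s36a_unit_of_sub VA hKV hKA
    rw [h0, map_zero] at this
    exact zero_ne_one this
  refine ⟨(c : L), g, ?_, hg, ?_⟩
  · intro hc0
    have : F₁ ^ (Q * q) = 0 := by
      rw [hcg, hcoe, hc0, map_zero, zero_mul]
    exact pow_ne_zero _ hF₁0 this
  · rw [hcg, hcoe]

end GlueOf

end Fermat.Agent.S36
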