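/-
Project S36 (Carayol), cell [ACORE] (helper1): the seams `s36_CoreAt` / `s36h_CoreAt` from a core
statement in helper11's vocabulary (`s36at_N K = algebraMap K E ∘ Algebra.norm K`,
`(algebraMap K E).fieldRange`), i.e. from the CONCLUSION of `s36at_core` (prefix `s36c_`).
-/
import Mathlib
import Fermat.Agent.S36.ACore.At
import Fermat.Agent.S36.ATower.Norms

set_option autoImplicit false
set_option linter.unusedSectionVars false
set_option linter.unusedVariables false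
set_option linter.style.haveILetI false

noncomputable section

namespace Fermat.Agent.S36

open ModularCurve AlgebraicCurve IntermediateField Fermat.Agent.JT3 Fermat.Agent.SS

section Gen

variable {L : Type*} [Field L] {E1 E1' E2 : IntermediateField L (LaurentSeries L)}

/-- `s36c_normIncl` is helper11's `s36at_N` for the inclusion algebra. -/
theorem s36c_normIncl_eq_atN (hle : E1 ≤ E2) :
    letI := ssm_gi_algebra hle
    s36c_normIncl hle = s36at_N ↥E1 := rfl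

theorem s36c_mem_fieldRange (hle : E1 ≤ E2) (y : ↥E1) :
    letI := ssm_gi_algebra hle
    IntermediateField.inclusion hle y ∈ (algebraMap ↥E1 ↥E2).fieldRange :=
  letI := ssm_gi_algebra hle
  ⟨y, rfl⟩

/-- **generic adaptor**, helper11's vocabulary. -/
theorem s36c_coreAt_gen_tower (hle : E1 ≤ E2) (hle' : E1' ≤ E2) (m d : ℕ)
    (hcore : letI := ssm_gi_algebra hle; letI := ssm_gi_algebra hle';
      ∀ g : ↥E2, g ≠ 0 → (∀ v : Place L ↥E2, (m : ℤ) ∣ v.ord g) →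
      ∀ c1 c2 : L, c1 ≠ 0 → c2 ≠ 0 → ∀ r1 r2 : ↥E2,
        r1 ∈ (algebraMap ↥E1 ↥E2).fieldRange → r2 ∈ (algebraMap ↥E1' ↥E2).fieldRange →
        s36at_N ↥E1 g = algebraMap L ↥E2 c1 * r1 ^ m →
        s36at_N ↥E1' g = algebraMap L ↥E2 c2 * r2 ^ m →
        ∃ (c : L) (r : ↥E2), c ≠ 0 ∧ r ≠ 0 ∧ g ^ d = algebraMap L ↥E2 c * r ^ m)
    (g : ↥E2) (hg : g ≠ 0) (hord : ∀ v : Place L ↥E2, (m : ℤ) ∣ v.ord g)
    (hn1 : ∃ (c : L) (r : ↥E1), r ≠ 0 ∧
      (letI := ssm_gi_algebra hle; Algebra.norm ↥E1 g) = algebraMap L ↥E1 c * r ^ m)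
    (hn2 : ∃ (c : L) (r : ↥E1'), r ≠ 0 ∧
      (letI := ssm_gi_algebra hle'; Algebra.norm ↥E1' g) = algebraMap L ↥E1' c * r ^ m) :
    ∃ (c : L) (r : ↥E2), r ≠ 0 ∧ g ^ d = algebraMap L ↥E2 c * r ^ m := by
  obtain ⟨c1, r1, hr1, h1⟩ := hn1
  obtain ⟨c2, r2, hr2, h2⟩ := hn2
  have key : ∀ {F1 : IntermediateField L (LaurentSeries L)} (hF : F1 ≤ E2) (c : L) (r : ↥F1),
      (letI := ssm_gi_algebra hF; Algebra.norm ↥F1 g) = algebraMap L ↥F1 c * r ^ m →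
      c ≠ 0 ∧ s36c_normIncl hF g =
        algebraMap L ↥E2 c * (IntermediateField.inclusion hF r) ^ m := by
    intro F1 hF c r h
    have e : s36c_normIncl hF g =
        algebraMap L ↥E2 c * (IntermediateField.inclusion hF r) ^ m := by
      rw [s36c_normIncl_apply, h, map_mul, map_pow]
      rfl
    refine ⟨?_, e⟩
    rintro rfl
    rw [map_zero, zero_mul] at e
    exact s36a_map_ne_zero (s36c_normIncl hF) hg e
  obtain ⟨hc1, e1⟩ := key hle c1 r1 h1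
  obtain ⟨hc2, e2⟩ := key hle' c2 r2 h2
  obtain ⟨c, r, hc, hr, hfin⟩ := hcore g hg hord c1 c2 hc1 hc2 _ _
    (s36c_mem_fieldRange hle r1) (s36c_mem_fieldRange hle' r2) e1 e2
  exact ⟨c, r, hr, hfin⟩

end Gen

section Legendre

variable {L : Type*} [Field L] [CharZero L] [Algebra L (AlgebraicClosure ℚ)]
  (N' q : ℕ) [NeZero N'] [NeZero q] (hq2 : ¬ 2 ∣ q)

/-- **Legendre**: `s36_CoreAt` from the conclusion of `s36at_core` on
`E₂ = lg_E L (N' q q) ⊇ E₁, β E₁` (inclusion algebras). -/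
theorem s36c_coreAt_of_tower (m d : ℕ)
    (hcore : letI := ssm_gi_algebra (ssm_al_E_le L (N' * q) q);
      letI := ssm_gi_algebra (ssm_al_E_beta_le L (N' * q) q hq2);
      ∀ g : ↥(lg_E L (N' * q * q)), g ≠ 0 →
      (∀ v : Place L ↥(lg_E L (N' * q * q)), (m : ℤ) ∣ v.ord g) →
      ∀ c1 c2 : L, c1 ≠ 0 → c2 ≠ 0 → ∀ r1 r2 : ↥(lg_E L (N' * q * q)),
        r1 ∈ (algebraMap ↥(lg_E L (N' * q)) ↥(lg_E L (N' * q * q))).fieldRange →
        r2 ∈ (algebraMap ↥((lg_E L (N' * q)).map (qExpandAlgHomC L q))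
          ↥(lg_E L (N' * q * q))).fieldRange →
        s36at_N ↥(lg_E L (N' * q)) g = algebraMap L ↥(lg_E L (N' * q * q)) c1 * r1 ^ m →
        s36at_N ↥((lg_E L (N' * q)).map (qExpandAlgHomC L q)) g =
          algebraMap L ↥(lg_E L (N' * q * q)) c2 * r2 ^ m →
        ∃ (c : L) (r : ↥(lg_E L (N' * q * q))), c ≠ 0 ∧ r ≠ 0 ∧
          g ^ d = algebraMap L ↥(lg_E L (N' * q * q)) c * r ^ m) :
    s36_CoreAt (L := L) N' q hq2 m d := by
  rintro g ⟨hg, hord, hn1, hn2⟩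
  exact s36c_coreAt_gen_tower (ssm_al_E_le L (N' * q) q) (ssm_al_E_beta_le L (N' * q) q hq2) m d
    hcore g hg hord hn1 hn2

end Legendre

section Hesse

variable {L : Type*} [Field L] [CharZero L] [Algebra L (AlgebraicClosure ℚ)] (h3 : (3 : L) ≠ 0)
  (N' q : ℕ) [NeZero N'] [NeZero q] (hq3 : ¬ 3 ∣ q)

/-- **Hesse**: `s36h_CoreAt` from the conclusion of `s36at_core`. -/
theorem s36c_h_coreAt_of_tower (m d : ℕ)
    (hcore : letI := ssm_gi_algebra (ssm_alh_E_le L h3 (ssm_fh_hF9 h3) (N' * q) q);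
      letI := ssm_gi_algebra (ssm_alh_E_beta_le L h3 (ssm_fh_hF9 h3) (N' * q) q hq3);
      ∀ g : ↥(hs_E L h3 (N' * q * q)), g ≠ 0 →
      (∀ v : Place L ↥(hs_E L h3 (N' * q * q)), (m : ℤ) ∣ v.ord g) →
      ∀ c1 c2 : L, c1 ≠ 0 → c2 ≠ 0 → ∀ r1 r2 : ↥(hs_E L h3 (N' * q * q)),
        r1 ∈ (algebraMap ↥(hs_E L h3 (N' * q)) ↥(hs_E L h3 (N' * q * q))).fieldRange →
        r2 ∈ (algebraMap ↥((hs_E L h3 (N' * q)).map (qExpandAlgHomC L q))
          ↥(hs_E L h3 (N' * q * q))).fieldRange →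
        s36at_N ↥(hs_E L h3 (N' * q)) g = algebraMap L ↥(hs_E L h3 (N' * q * q)) c1 * r1 ^ m →
        s36at_N ↥((hs_E L h3 (N' * q)).map (qExpandAlgHomC L q)) g =
          algebraMap L ↥(hs_E L h3 (N' * q * q)) c2 * r2 ^ m →
        ∃ (c : L) (r : ↥(hs_E L h3 (N' * q * q))), c ≠ 0 ∧ r ≠ 0 ∧
          g ^ d = algebraMap L ↥(hs_E L h3 (N' * q * q)) c * r ^ m) :
    s36h_CoreAt (L := L) h3 N' q hq3 m d := by
  rintro g ⟨hg, hord, hn1, hn2⟩
  exact s36c_coreAt_gen_tower (ssm_alh_E_le L h3 (ssm_fh_hF9 h3) (N' * q) q)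
    (ssm_alh_E_beta_le L h3 (ssm_fh_hF9 h3) (N' * q) q hq3) m d hcore g hg hord hn1 hn2

end Hesse

end Fermat.Agent.S36
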