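/-
Project S36 (Carayol), cell [ACORE] (helper1): the 'same restriction' facts `hAC1` / `hBC2` of
`s36c_G` from `ssm_tw_Over` (prefix `s36c_`).

Two valuation subrings `V, W` of `E` over the same DVR `R` of the subfield `K` have the same
non-units on `K`.
-/
import Mathlib
import Fermat.Agent.SS.Model.TwoValW
import Fermat.Agent.SS.Model.TwoValInst

set_option autoImplicit false
set_option linter.unusedSectionVars false
set_option linter.unusedVariables false
set_option linter.style.haveILetI false

namespace Fermat.Agent.S36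

open Fermat.Agent.SS

section Restr

variable {K : Type*} {E : Type*} [Field K] [Field E] [Algebra K E]
  {R : Type*} [CommRing R] [IsDomain R] [IsDiscreteValuationRing R] [Algebra R K]
  [IsFractionRing R K] [Algebra R E] [IsScalarTower R K E]

/-- membership in the non-units of a valuation subring over `R`, for elements of `K`, only depends
on `R`. -/
theorem s36c_nonunits_of_over {V : ValuationSubring E} (hV : ssm_tw_Over K R V) (z : K) :
    algebraMap K E z ∈ V.nonunits ↔
      z ∈ (algebraMap R K).range ∧ (z = 0 ∨ z⁻¹ ∉ (algebraMap R K).range) := by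
  rw [ssm_tw_nonunits_iff, hV z, ← map_inv₀, hV z⁻¹, map_eq_zero]

/-- **same restriction**: `V ∩ K = W ∩ K = R` ⟹ `𝔪(V) ∩ K = 𝔪(W) ∩ K`. -/
theorem s36c_nonunits_iff_of_over {V W : ValuationSubring E} (hV : ssm_tw_Over K R V)
    (hW : ssm_tw_Over K R W) (z : K) :
    algebraMap K E z ∈ V.nonunits ↔ algebraMap K E z ∈ W.nonunits := by
  rw [s36c_nonunits_of_over hV, s36c_nonunits_of_over hW]

/-- the same, for the elements of a subfield `K1 ⊆ E` contained in the image of `K`. -/
theorem s36c_same_restr {V W : ValuationSubring E} (hV : ssm_tw_Over K R V)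
    (hW : ssm_tw_Over K R W) (K1 : Subfield E) (hK1 : ∀ y ∈ K1, ∃ z : K, algebraMap K E z = y) :
    ∀ y : E, y ∈ K1 → (y ∈ V.nonunits ↔ y ∈ W.nonunits) := by
  intro y hy
  obtain ⟨z, rfl⟩ := hK1 y hy
  exact s36c_nonunits_iff_of_over hV hW z

end Restr

end Fermat.Agent.S36
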